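import Fermat.Agent.S13.CU.TorsionC
import Fermat.Agent.S13.CU.DescentIface
import Fermat.Agent.S15.E2.Local.Quant

/-!
# S15, block E2 (analytic side), part 2: pointwise uniformisation of a Weierstrass curve

`IsUnif W i` (`W` over a field `F`, `i : F →+* ℂ`): there are a period pair `L`, a scalar `u ≠ 0`
and an injective homomorphism `Φ : W(F) → ℂ/L`, onto the torsion of `ℂ/L`, with

* `i c₄ = 12 u⁴ g₂`, `i c₆ = 216 u⁶ g₃`, `i Δ = u¹² (g₂³ - 27 g₃²)`;
* for `Φ P = [z]`, `z ∉ L`: `i (12 x_P + b₂) = 12 u² ℘(z)` and `i (ψ₂ P) = u³ ℘'(z)`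
  (hence `i (t_P) = u⁴ ℘''(z)`, `IsUnif.tP_eq`).

`isUnif` : every `W` with `Δ ≠ 0` over an algebraically closed field is uniformised along every
`i`.  Built from main's `S13/CU` (`Uniformize.exists_variableChange`, `UnifIso.pointEquiv`,
`VarChange.pointEquiv`, `DescentIface.exists_mapPoint_eq`).
-/

set_option autoImplicit false
set_option linter.unusedSectionVars false
set_option linter.unusedVariables false

open scoped Classical

noncomputable section

namespace Fermat.Agent.S15.E2.Unif.Point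

open Complex
open scoped PeriodPair
open WeierstrassCurve WeierstrassCurve.Affine
open Fermat.Agent.S13.CU Fermat.Agent.S13.CU.Defs
open Fermat.Agent.S13.Local.NodalInst
open Fermat.Agent.S15.E2.Local.Quant

/-- `W` is uniformised along `i`. -/
def IsUnif {F : Type*} [Field F] (W : WeierstrassCurve F) (i : F →+* ℂ) : Prop :=
  ∃ (L : PeriodPair) (u : ℂ) (Φ : W.toAffine.Point →+ ℂ ⧸ L.lattice.toAddSubgroup),
    u ≠ 0 ∧ Function.Injective Φ ∧
    (∀ n : ℕ, n ≠ 0 → ∀ w : ℂ ⧸ L.lattice.toAddSubgroup, n • w = 0 → w ∈ Set.range Φ) ∧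
    i W.c₄ = 12 * u ^ 4 * L.g₂ ∧ i W.c₆ = 216 * u ^ 6 * L.g₃ ∧
    i W.Δ = u ^ 12 * (L.g₂ ^ 3 - 27 * L.g₃ ^ 2) ∧
    ∀ (P : W.toAffine.Point) (z : ℂ), Φ P = QuotientAddGroup.mk z → z ∉ L.lattice →
      i (12 * ptX W P + W.b₂) = 12 * u ^ 2 * ℘[L] z ∧ i (psi2 W P) = u ^ 3 * ℘'[L] z

/-! ### Level 0: the lattice curve -/

theorem isUnif_shortOf (L : PeriodPair) : IsUnif (shortOf L) (RingHom.id ℂ) := by
  refine ⟨L, 1, (UnifIso.pointEquiv L).symm.toAddMonoidHom, one_ne_zero,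
    (UnifIso.pointEquiv L).symm.injective, ?_, ?_, ?_, ?_, ?_⟩
  · intro n _ w _
    exact ⟨UnifIso.pointEquiv L w, (UnifIso.pointEquiv L).symm_apply_apply w⟩
  · simp only [RingHom.id_apply, WeierstrassCurve.c₄, WeierstrassCurve.b₂, WeierstrassCurve.b₄,
      shortOf_a₁, shortOf_a₂, shortOf_a₃, shortOf_a₄]
    ring
  · simp only [RingHom.id_apply, WeierstrassCurve.c₆, WeierstrassCurve.b₂, WeierstrassCurve.b₄,
      WeierstrassCurve.b₆, shortOf_a₁, shortOf_a₂, shortOf_a₃, shortOf_a₄, shortOf_a₆]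
    ring
  · rw [RingHom.id_apply, shortOf_Δ]
    ring
  · intro P z hP hz
    have hP' : P = UnifIso.pointEquiv L (QuotientAddGroup.mk z) := by
      rw [← hP]
      exact ((UnifIso.pointEquiv L).apply_symm_apply P).symm
    have hP'' : P = Point.some _ _ (UnifIso.nonsingular L hz) := by
      rw [hP']
      exact UnifIso.pointEquiv_mk_of_not_mem L hz
    subst hP''
    constructor
    · simp only [RingHom.id_apply, ptX_some, WeierstrassCurve.b₂, shortOf_a₁, shortOf_a₂]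
      ring
    · simp only [RingHom.id_apply, psi2, ptX_some, ptY_some, shortOf_a₁, shortOf_a₃]
      ring

/-! ### Level 1: change of variables over `ℂ` -/

theorem IsUnif.of_smul {W : WeierstrassCurve ℂ} (C : VariableChange ℂ)
    (h : IsUnif (C • W) (RingHom.id ℂ)) : IsUnif W (RingHom.id ℂ) := by
  obtain ⟨L, u, Φ, hu, hinj, htors, hc4, hc6, hΔ, hpt⟩ := h
  have hCu : (C.u : ℂ) ≠ 0 := C.u.ne_zero
  have hinv : ((C.u⁻¹ : ℂˣ) : ℂ) = (C.u : ℂ)⁻¹ := Units.val_inv_eq_inv_val C.u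
  set ψ := VarChange.pointEquiv W C with hψ
  refine ⟨L, C.u * u, Φ.comp ψ.symm.toAddMonoidHom, mul_ne_zero hCu hu,
    hinj.comp ψ.symm.injective, ?_, ?_, ?_, ?_, ?_⟩
  · intro n hn w hw
    obtain ⟨T', rfl⟩ := htors n hn w hw
    refine ⟨ψ T', ?_⟩
    show Φ (ψ.symm (ψ T')) = Φ T'
    rw [ψ.symm_apply_apply]
  · rw [RingHom.id_apply] at hc4 ⊢
    rw [variableChange_c₄, hinv] at hc4
    have : W.c₄ = (C.u : ℂ) ^ 4 * ((C.u : ℂ)⁻¹ ^ 4 * W.c₄) := by
      field_simp
    rw [this, hc4]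
    ring
  · rw [RingHom.id_apply] at hc6 ⊢
    rw [variableChange_c₆, hinv] at hc6
    have : W.c₆ = (C.u : ℂ) ^ 6 * ((C.u : ℂ)⁻¹ ^ 6 * W.c₆) := by
      field_simp
    rw [this, hc6]
    ring
  · rw [RingHom.id_apply] at hΔ ⊢
    rw [variableChange_Δ, hinv] at hΔ
    have : W.Δ = (C.u : ℂ) ^ 12 * ((C.u : ℂ)⁻¹ ^ 12 * W.Δ) := by
      field_simp
    rw [this, hΔ]
    ring
  · intro P z hP hz
    have hP1 : Φ (ψ.symm P) = QuotientAddGroup.mk z := hP
    obtain ⟨h1, h2⟩ := hpt (ψ.symm P) z hP1 hz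
    have hP0 : ψ.symm P ≠ 0 := by
      intro h0
      rw [h0, map_zero] at hP1
      apply hz
      have := (QuotientAddGroup.eq_zero_iff z).mp hP1.symm
      exact this
    have hPeq : P = ψ (ψ.symm P) := (ψ.apply_symm_apply P).symm
    rcases hP' : ψ.symm P with _ | ⟨x', y', h'⟩
    · exact absurd hP' hP0
    rw [hP'] at h1 h2 hPeq
    rw [hψ, VarChange.pointEquiv_some] at hPeq
    subst hPeq
    simp only [RingHom.id_apply, ptX_some, psi2, ptY_some] at h1 h2 ⊢
    rw [variableChange_b₂, hinv] at h1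
    rw [variableChange_a₁, variableChange_a₃, hinv] at h2
    simp only [VarChange.vx, VarChange.vy]
    constructor
    · have e : 12 * ((C.u : ℂ) ^ 2 * x' + C.r) + W.b₂ =
          (C.u : ℂ) ^ 2 * (12 * x' + (C.u : ℂ)⁻¹ ^ 2 * (W.b₂ + 12 * C.r)) := by
        field_simp
        ring
      rw [e, h1]
      ring
    · have e : 2 * ((C.u : ℂ) ^ 3 * y' + (C.u : ℂ) ^ 2 * C.s * x' + C.t)
          + W.a₁ * ((C.u : ℂ) ^ 2 * x' + C.r) + W.a₃ =
          (C.u : ℂ) ^ 3 * (2 * y' + (C.u : ℂ)⁻¹ * (W.a₁ + 2 * C.s) * x'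
            + (C.u : ℂ)⁻¹ ^ 3 * (W.a₃ + C.r * W.a₁ + 2 * C.t)) := by
        field_simp
        ring
      rw [e, h2]
      ring

/-! ### Level 2: descent along `i : K →+* ℂ` -/

theorem IsUnif.of_map {K : Type*} [Field K] [IsAlgClosed K] (i : K →+* ℂ)
    (E : WeierstrassCurve K) (hΔ : E.Δ ≠ 0) (h : IsUnif (E.map i) (RingHom.id ℂ)) :
    IsUnif E i := by
  obtain ⟨L, u, Φ, hu, hinj, htors, hc4, hc6, hΔ', hpt⟩ := h
  have hΔC : (E.map i).Δ ≠ 0 := by
    rw [map_Δ]
    exact (map_ne_zero i).mpr hΔ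
  refine ⟨L, u, Φ.comp (DescentIface.mapPoint i E), hu,
    hinj.comp (DescentIface.mapPoint_injective i E), ?_, ?_, ?_, ?_, ?_⟩
  · intro n hn w hw
    obtain ⟨T', rfl⟩ := htors n hn w hw
    have hT' : n • T' = 0 := by
      apply hinj
      rw [map_nsmul, hw, map_zero]
    have hfin : Finite (Submodule.torsionBy ℤ (E.map i).toAffine.Point n) :=
      (TorsionC.torsionCard (E.map i) hΔC n (Nat.pos_of_ne_zero hn)).finite
        (Nat.pos_of_ne_zero hn)
    obtain ⟨T, -, hT⟩ := DescentIface.exists_mapPoint_eq i E n hfin T' hT'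
    exact ⟨T, by rw [← hT]; rfl⟩
  · rw [RingHom.id_apply, map_c₄] at hc4
    exact hc4
  · rw [RingHom.id_apply, map_c₆] at hc6
    exact hc6
  · rw [RingHom.id_apply, map_Δ] at hΔ'
    exact hΔ'
  · intro P z hP hz
    obtain ⟨h1, h2⟩ := hpt (DescentIface.mapPoint i E P) z hP hz
    rcases P with _ | ⟨x, y, hxy⟩
    · exfalso
      apply hz
      have h0 : (Φ.comp (DescentIface.mapPoint i E)) 0 = QuotientAddGroup.mk z := hP
      rw [map_zero] at h0
      exact (QuotientAddGroup.eq_zero_iff z).mp h0.symm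
    · obtain ⟨hxy', he⟩ := DescentIface.mapPoint_some i E hxy
      rw [he] at h1 h2
      simp only [RingHom.id_apply, ptX_some, psi2, ptY_some, map_b₂, map_a₁, map_a₃] at h1 h2 ⊢
      constructor
      · rw [← h1]
        simp only [map_add, map_mul, map_ofNat]
      · rw [← h2]
        simp only [map_add, map_mul, map_ofNat]

/-- **Pointwise uniformisation**: every Weierstrass curve with `Δ ≠ 0` over an algebraically
closed field is uniformised along every embedding into `ℂ`. -/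
theorem isUnif {K : Type*} [Field K] [IsAlgClosed K] (E : WeierstrassCurve K) (hΔ : E.Δ ≠ 0)
    (i : K →+* ℂ) : IsUnif E i := by
  have hΔC : (E.map i).Δ ≠ 0 := by
    rw [map_Δ]
    exact (map_ne_zero i).mpr hΔ
  obtain ⟨L, C, hC⟩ := Uniformize.exists_variableChange (E.map i) hΔC
  have h0 := isUnif_shortOf L
  rw [← hC] at h0
  exact (h0.of_smul C).of_map i E hΔ

end Fermat.Agent.S15.E2.Unif.Point
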