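import Fermat.Agent.S15.E2.Unif.Scale
import Fermat.Agent.S15.E2.Unif.Point
import Fermat.Agent.S15.E2.DiscLattice

/-!
# S15, block E2 (analytic side), part 3: the two identities in model form

`K` an algebraically closed field with an embedding `i : K →+* ℂ`, `E` a Weierstrass curve over
`K` with `Δ ≠ 0`.

* `sum_tP_torsion` **(S3a)**: `120 ∑_{P ∈ E[N] ∖ 0} t_P = (N⁴ - 1) c₄`.
* `c4q E N Q`, `dq E N Q`, `jq E N Q`: Velu's `c₄' = c₄ + 120 ∑_{k=1}^{N-1} t(kQ)`,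
  `Δ' = Δ^N / ∏_{k=1}^{N-1} ψ₂(kQ)⁴` and `j' = c₄'³/Δ'` of the quotient by `⟨Q⟩`, as NUMBERS.
* `exists_lattice` **(U)**: for `Q` of odd prime order `N` there are a period pair `L` and
  `z ∉ L`, `N z ∈ L`, with `i j(E) = j(L)` and `i j' = j(L')` for every period pair `L'` with
  lattice `L + ℤ z`.
-/

set_option autoImplicit false
set_option linter.unusedSectionVars false
set_option linter.unusedVariables false

open scoped Classical

noncomputable section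

namespace Fermat.Agent.S15.E2.Unif.Main

open Complex
open scoped PeriodPair
open WeierstrassCurve WeierstrassCurve.Affine
open Fermat.Agent.S13.CU Fermat.Agent.S13.CU.Defs
open Fermat.Agent.S13.CU.ValSum Fermat.Agent.S13.CU.ValSumPoint
open Fermat.Agent.S13.Local.NodalInst
open Fermat.Agent.S15.E2.Local.Quant
open Fermat.Agent.S15.E2.Unif.Scale Fermat.Agent.S15.E2.Unif.Point

/-! ### Algebra -/

section Algebra

variable {F : Type*} [Field F] (W : WeierstrassCurve F)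

theorem tP_eq (P : W.toAffine.Point) :
    24 * tP W P = (12 * ptX W P + W.b₂) ^ 2 - W.c₄ := by
  unfold tP WeierstrassCurve.c₄
  ring

/-- `ψ₂` does not vanish outside the `2`-torsion. -/
theorem psi2_ne_zero {P : W.toAffine.Point} (hP : 2 • P ≠ 0) : psi2 W P ≠ 0 := by
  intro h0
  apply hP
  rcases P with _ | ⟨x, y, h⟩
  · rfl
  · rw [two_nsmul]
    refine Point.add_self_of_Y_eq ?_
    simp only [psi2, ptX_some, ptY_some] at h0
    rw [WeierstrassCurve.Affine.negY]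
    linear_combination h0

/-- Velu's `c₄' = c₄ + 120 ∑_{k=1}^{N-1} t(kQ)`. -/
def c4q (N : ℕ) (Q : W.toAffine.Point) : F :=
  W.c₄ + 120 * ∑ k ∈ Finset.Icc 1 (N - 1), tP W (k • Q)

/-- `Δ' = Δ^N / ∏_{k=1}^{N-1} ψ₂(kQ)⁴`. -/
def dq (N : ℕ) (Q : W.toAffine.Point) : F :=
  W.Δ ^ N / ∏ k ∈ Finset.Icc 1 (N - 1), psi2 W (k • Q) ^ 4

/-- `j' = c₄'³ / Δ'`. -/
def jq (N : ℕ) (Q : W.toAffine.Point) : F := c4q W N Q ^ 3 / dq W N Q

theorem psi2_nsmul_ne_zero {N : ℕ} (hN : N.Prime) (hN2 : N ≠ 2) {Q : W.toAffine.Point}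
    (hQ0 : Q ≠ 0) (hNQ : N • Q = 0) {k : ℕ} (hk : ¬ N ∣ k) : psi2 W (k • Q) ≠ 0 := by
  apply psi2_ne_zero
  rw [← mul_nsmul]
  apply Fermat.Agent.S15.E2.Local.Nodal.nsmul_ne_zero_of_prime hN hQ0 hNQ
  intro hd
  rcases (Nat.Prime.dvd_mul hN).mp hd with h | h
  · exact hk h
  · exact hN2 ((Nat.prime_dvd_prime_iff_eq hN Nat.prime_two).mp h)

theorem not_dvd_of_mem_Icc {N k : ℕ} (hk : k ∈ Finset.Icc 1 (N - 1)) : ¬ N ∣ k := by
  rw [Finset.mem_Icc] at hk
  intro hd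
  have := Nat.le_of_dvd (by omega) hd
  omega

theorem prod_psi2_ne_zero {N : ℕ} (hN : N.Prime) (hN2 : N ≠ 2) {Q : W.toAffine.Point}
    (hQ0 : Q ≠ 0) (hNQ : N • Q = 0) :
    ∏ k ∈ Finset.Icc 1 (N - 1), psi2 W (k • Q) ^ 4 ≠ 0 := by
  rw [Finset.prod_ne_zero_iff]
  intro k hk
  exact pow_ne_zero 4 (psi2_nsmul_ne_zero W hN hN2 hQ0 hNQ (not_dvd_of_mem_Icc hk))

/-- (V-DELTA) holds for `dq` by definition. -/
theorem dq_mul {N : ℕ} (hN : N.Prime) (hN2 : N ≠ 2) {Q : W.toAffine.Point}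
    (hQ0 : Q ≠ 0) (hNQ : N • Q = 0) :
    dq W N Q * ∏ k ∈ Finset.Icc 1 (N - 1), psi2 W (k • Q) ^ 4 = W.Δ ^ N := by
  rw [dq, div_mul_cancel₀ _ (prod_psi2_ne_zero W hN hN2 hQ0 hNQ)]

end Algebra

/-! ### (S3a) -/

section S3a

variable {K : Type*} [Field K] [IsAlgClosed K]

/-- **(S3a)**: `120 ∑_{P ∈ E[N] ∖ 0} t_P = (N⁴ - 1) c₄`. -/
theorem sum_tP_torsion (E : WeierstrassCurve K) (hΔ : E.Δ ≠ 0) (i : K →+* ℂ) {N : ℕ}
    (hN : N ≠ 0) (T : Finset E.toAffine.Point) (hT : ∀ P, P ∈ T ↔ N • P = 0 ∧ P ≠ 0) :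
    120 * ∑ P ∈ T, tP E P = ((N : K) ^ 4 - 1) * E.c₄ := by
  have : NeZero N := ⟨hN⟩
  obtain ⟨L, u, Φ, hu, hinj, htors, hc4, hc6, hΔL, hpt⟩ := isUnif E hΔ i
  -- the representatives and their points
  have hR : ∀ r ∈ (reps L N).erase 0, r ∉ L.lattice ∧
      N • (QuotientAddGroup.mk r : ℂ ⧸ L.lattice.toAddSubgroup) = 0 := by
    intro r hr
    rw [Finset.mem_erase] at hr
    refine ⟨fun h => hr.1 (eq_zero_of_mem_reps_of_mem hN hr.2 h), ?_⟩
    rw [← QuotientAddGroup.mk_nsmul, QuotientAddGroup.eq_zero_iff, nsmul_eq_mul]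
    exact mul_mem_of_mem_reps L hN r hr.2
  have hex : ∀ r ∈ (reps L N).erase 0, ∃ P : E.toAffine.Point,
      Φ P = (QuotientAddGroup.mk r : ℂ ⧸ L.lattice.toAddSubgroup) := by
    intro r hr
    obtain ⟨P, hP⟩ := htors N hN _ (hR r hr).2
    exact ⟨P, hP⟩
  choose! pt hpt' using hex
  -- the value at each representative
  have hval : ∀ r ∈ (reps L N).erase 0,
      i (tP E (pt r)) = u ^ 4 * (6 * ℘[L] r ^ 2 - L.g₂ / 2) := by
    intro r hr
    obtain ⟨h1, -⟩ := hpt (pt r) r (hpt' r hr) (hR r hr).1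
    have h24 : (24 : ℂ) * i (tP E (pt r)) = 24 * (u ^ 4 * (6 * ℘[L] r ^ 2 - L.g₂ / 2)) := by
      have := congrArg i (tP_eq E (pt r))
      rw [map_mul, map_sub, map_pow, h1, hc4, map_ofNat] at this
      rw [this]
      ring
    exact mul_left_cancel₀ (by norm_num) h24
  -- the bijection
  have hsum : ∑ P ∈ T, tP E P = ∑ r ∈ (reps L N).erase 0, tP E (pt r) := by
    symm
    refine Finset.sum_bij (fun r _ => pt r) ?_ ?_ ?_ (fun _ _ => rfl)
    · intro r hr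
      rw [hT]
      constructor
      · apply hinj
        rw [map_nsmul, hpt' r hr, (hR r hr).2, map_zero]
      · intro h0
        have := hpt' r hr
        rw [h0, map_zero] at this
        exact (hR r hr).1 ((QuotientAddGroup.eq_zero_iff r).mp this.symm)
    · intro r hr r' hr' h
      have h1 : (QuotientAddGroup.mk r : ℂ ⧸ L.lattice.toAddSubgroup) = QuotientAddGroup.mk r' := by
        rw [← hpt' r hr, ← hpt' r' hr', h]
      have h2 : r - r' ∈ L.lattice := by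
        have := QuotientAddGroup.eq.mp h1
        have e : r - r' = -(-r + r') := by ring
        rw [e]
        exact L.lattice.neg_mem this
      exact eq_of_mem_reps_of_sub_mem hN (Finset.mem_of_mem_erase hr)
        (Finset.mem_of_mem_erase hr') h2
    · intro P hP
      obtain ⟨hNP, hP0⟩ := (hT P).mp hP
      obtain ⟨z, hz⟩ := QuotientAddGroup.mk_surjective (Φ P)
      have hzL : z ∉ L.lattice := by
        intro h
        apply hP0
        apply hinj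
        rw [map_zero, ← hz]
        exact (QuotientAddGroup.eq_zero_iff z).mpr h
      have hNz : (N : ℂ) * z ∈ L.lattice := by
        have h1 : N • (QuotientAddGroup.mk z : ℂ ⧸ L.lattice.toAddSubgroup) = 0 := by
          rw [hz, ← map_nsmul, hNP, map_zero]
        rw [← QuotientAddGroup.mk_nsmul, QuotientAddGroup.eq_zero_iff, nsmul_eq_mul] at h1
        exact h1
      have hw : (N : ℂ) * (-z) ∈ L.lattice := by
        have := L.lattice.neg_mem hNz
        rwa [← mul_neg] at this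
      obtain ⟨t, ⟨ht, htz⟩, -⟩ := existsUnique_reps L hN (-z) hw
      have ht0 : t ≠ 0 := by
        rintro rfl
        apply hzL
        have := L.lattice.neg_mem htz
        simpa using this
      have htR : t ∈ (reps L N).erase 0 := Finset.mem_erase.mpr ⟨ht0, ht⟩
      refine ⟨t, htR, ?_⟩
      apply hinj
      rw [hpt' t htR, ← hz]
      exact (QuotientAddGroup.eq.mpr htz).symm
  apply i.injective
  rw [hsum, map_mul, map_sum, map_mul, map_sub, map_pow, map_natCast, map_one, hc4, map_ofNat,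
    Finset.sum_congr rfl hval, ← Finset.mul_sum]
  have key := sum_d2_reps L N
  linear_combination (12 * u ^ 4) * key

end S3a

/-! ### The lattice `L + ℤ z` -/

section Lattice

variable (L : PeriodPair) {N : ℕ} (hN : N.Prime) {z : ℂ} (hz : z ∉ L.lattice)
  (hNz : (N : ℂ) * z ∈ L.lattice)

include hN hz hNz

theorem dvd_of_mul_mem {m : ℤ} (h : (m : ℂ) * z ∈ L.lattice) : (N : ℤ) ∣ m := by
  by_contra hnd
  have hcop : IsCoprime (N : ℤ) m :=
    (Nat.prime_iff_prime_int.mp hN).irreducible.coprime_iff_not_dvd.mpr hnd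
  obtain ⟨a, b, hab⟩ := hcop
  apply hz
  have e : z = (a : ℂ) * ((N : ℂ) * z) + (b : ℂ) * ((m : ℂ) * z) := by
    have h1 : ((a * (N : ℤ) + b * m : ℤ) : ℂ) = 1 := by rw [hab]; simp
    push_cast at h1
    linear_combination (-z) * h1
  rw [e]
  have h1 : (a : ℂ) * ((N : ℂ) * z) = a • ((N : ℂ) * z) := by simp
  have h2 : (b : ℂ) * ((m : ℂ) * z) = b • ((m : ℂ) * z) := by simp
  rw [h1, h2]
  exact add_mem (L.lattice.smul_mem a hNz) (L.lattice.smul_mem b h)

theorem natCast_mul_notMem {k : ℕ} (hk : ¬ N ∣ k) : (k : ℂ) * z ∉ L.lattice := by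
  intro h
  have h1 : ((k : ℤ) : ℂ) * z ∈ L.lattice := by exact_mod_cast h
  have := dvd_of_mul_mem L hN hz hNz h1
  exact hk (by exact_mod_cast this)

/-- the representatives `z, 2 z, …, (N - 1) z` -/
def repsZ (N : ℕ) (z : ℂ) : Finset ℂ := (Finset.Icc 1 (N - 1)).image (fun k : ℕ => (k : ℂ) * z)

omit hN hNz in
theorem injOn_repsZ : Set.InjOn (fun k : ℕ => (k : ℂ) * z) (Finset.Icc 1 (N - 1) : Finset ℕ) := by
  intro k _ k' _ h
  have hz0 : z ≠ 0 := fun h0 => hz (h0 ▸ zero_mem _)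
  have := mul_right_cancel₀ hz0 h
  exact_mod_cast this

omit hN hNz in
theorem card_repsZ : (repsZ N z).card = N - 1 := by
  rw [repsZ, Finset.card_image_of_injOn (injOn_repsZ L hz), Nat.card_Icc]
  omega

variable (L' : PeriodPair) (hL' : ∀ w, w ∈ L'.lattice ↔ ∃ k : ℤ, w - (k : ℂ) * z ∈ L.lattice)

include hL'

omit hN hz hNz in
theorem le_of_lattice : L.lattice ≤ L'.lattice := by
  intro w hw
  rw [hL']
  exact ⟨0, by simpa using hw⟩

omit hN hz hNz in
theorem mem_of_repsZ : ∀ r ∈ repsZ N z, r ∈ L'.lattice := by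
  intro r hr
  rw [repsZ, Finset.mem_image] at hr
  obtain ⟨k, -, rfl⟩ := hr
  rw [hL']
  exact ⟨k, by simp⟩

omit hL' in
theorem notMem_of_repsZ : ∀ r ∈ repsZ N z, r ∉ L.lattice := by
  intro r hr
  rw [repsZ, Finset.mem_image] at hr
  obtain ⟨k, hk, rfl⟩ := hr
  exact natCast_mul_notMem L hN hz hNz (not_dvd_of_mem_Icc hk)

omit hL' in
theorem inj_of_repsZ : ∀ r ∈ repsZ N z, ∀ s ∈ repsZ N z, r - s ∈ L.lattice → r = s := by
  intro r hr s hs h
  rw [repsZ, Finset.mem_image] at hr hs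
  obtain ⟨k, hk, rfl⟩ := hr
  obtain ⟨k', hk', rfl⟩ := hs
  have h1 : (((k : ℤ) - (k' : ℤ) : ℤ) : ℂ) * z ∈ L.lattice := by
    have e : (((k : ℤ) - (k' : ℤ) : ℤ) : ℂ) * z = (k : ℂ) * z - (k' : ℂ) * z := by
      push_cast
      ring
    rw [e]
    exact h
  have hd := dvd_of_mul_mem L hN hz hNz h1
  rw [Finset.mem_Icc] at hk hk'
  have : k = k' := by
    obtain ⟨c, hc⟩ := hd
    have hN1 := hN.one_lt
    have hc0 : c = 0 := by
      by_contra hc0
      rcases lt_or_gt_of_ne hc0 with h | h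
      · have : (N : ℤ) * c ≤ -N := by nlinarith
        omega
      · have : (N : ℤ) ≤ N * c := by nlinarith
        omega
    rw [hc0, mul_zero] at hc
    omega
  rw [this]

theorem cover_of_repsZ : ∀ l ∈ L'.lattice, l ∈ L.lattice ∨ ∃ r ∈ repsZ N z, l - r ∈ L.lattice := by
  intro l hl
  obtain ⟨m, hm⟩ := (hL' l).mp hl
  have hN0 : (N : ℤ) ≠ 0 := by exact_mod_cast hN.ne_zero
  have hpos : (0 : ℤ) < N := by exact_mod_cast hN.pos
  have h0 : 0 ≤ m % (N : ℤ) := Int.emod_nonneg _ hN0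
  have h1 : m % (N : ℤ) < N := Int.emod_lt_of_pos _ hpos
  have hdm := Int.emod_add_mul_ediv m (N : ℤ)
  set k : ℕ := (m % (N : ℤ)).toNat with hk
  have hkc : (k : ℤ) = m % (N : ℤ) := Int.toNat_of_nonneg h0
  have e : l - (k : ℂ) * z = (l - (m : ℂ) * z) + ((m / (N : ℤ) : ℤ) : ℂ) * ((N : ℂ) * z) := by
    have h2 : ((m : ℤ) : ℂ) = ((k : ℤ) : ℂ) + ((N : ℤ) : ℂ) * ((m / (N : ℤ) : ℤ) : ℂ) := by
      rw [hkc]
      exact_mod_cast hdm.symm
    push_cast at h2
    rw [h2]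
    ring
  have hmem : l - (k : ℂ) * z ∈ L.lattice := by
    rw [e]
    have h3 : ((m / (N : ℤ) : ℤ) : ℂ) * ((N : ℂ) * z) = (m / (N : ℤ)) • ((N : ℂ) * z) := by simp
    rw [h3]
    exact add_mem hm (L.lattice.smul_mem _ hNz)
  by_cases hk0 : k = 0
  · left
    rw [hk0] at hmem
    simpa using hmem
  · right
    refine ⟨(k : ℂ) * z, ?_, hmem⟩
    rw [repsZ, Finset.mem_image]
    refine ⟨k, ?_, rfl⟩
    rw [Finset.mem_Icc]
    have : (k : ℤ) < N := by rw [hkc]; exact h1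
    omega

omit hN hz in
theorem mul_mem_of_lattice : ∀ l ∈ L'.lattice, (N : ℂ) * l ∈ L.lattice := by
  intro l hl
  obtain ⟨m, hm⟩ := (hL' l).mp hl
  have e : (N : ℂ) * l = (N : ℂ) * (l - (m : ℂ) * z) + (m : ℂ) * ((N : ℂ) * z) := by ring
  rw [e]
  have h1 : (N : ℂ) * (l - (m : ℂ) * z) = N • (l - (m : ℂ) * z) := by simp
  have h2 : (m : ℂ) * ((N : ℂ) * z) = m • ((N : ℂ) * z) := by simp
  rw [h1, h2]
  exact add_mem (L.lattice.nsmul_mem hm N) (L.lattice.smul_mem m hNz)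

theorem isReps9 : Fermat.Agent.S15.E1.SubLattice.IsReps L L' (repsZ N z) where
  le := le_of_lattice L L' hL'
  mem := mem_of_repsZ L L' hL'
  notMem := notMem_of_repsZ L hN hz hNz
  exists_rep := by
    intro w hw hwL
    rcases cover_of_repsZ L hN hz hNz L' hL' w hw with h | h
    · exact absurd h hwL
    · exact h
  unique := inj_of_repsZ L hN hz hNz

theorem isReps27 : Fermat.Agent.S15.E2.DiscLattice.IsReps L L' (repsZ N z) where
  le := le_of_lattice L L' hL'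
  mem := mem_of_repsZ L L' hL'
  notMem := notMem_of_repsZ L hN hz hNz
  inj := inj_of_repsZ L hN hz hNz
  cover := cover_of_repsZ L hN hz hNz L' hL'

/-- `g₂(L') = g₂(L) + 10 ∑_{k=1}^{N-1} ℘''(k z)` -/
theorem g₂_superlattice :
    L'.g₂ = L.g₂ + 10 * ∑ k ∈ Finset.Icc 1 (N - 1), (6 * ℘[L] ((k : ℂ) * z) ^ 2 - L.g₂ / 2) := by
  rw [(isReps9 L hN hz hNz L' hL').g₂_eq', repsZ, Finset.sum_image (injOn_repsZ L hz)]

/-- `Δ(L') ∏_{k=1}^{N-1} ℘'(k z)⁴ = Δ(L)^N` -/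
theorem disc_superlattice (hN2 : N ≠ 2) :
    (L'.g₂ ^ 3 - 27 * L'.g₃ ^ 2) * ∏ k ∈ Finset.Icc 1 (N - 1), ℘'[L] ((k : ℂ) * z) ^ 4
      = (L.g₂ ^ 3 - 27 * L.g₃ ^ 2) ^ N := by
  have hodd : Odd N := hN.odd_of_ne_two hN2
  have h := Fermat.Agent.S15.E2.DiscLattice.disc_superlattice (isReps27 L hN hz hNz L' hL') hodd
    (mul_mem_of_lattice L hNz L' hL')
  rw [card_repsZ L hz, repsZ, Finset.prod_image (injOn_repsZ L hz)] at h
  have hN1 := hN.one_lt
  have e : N - 1 + 1 = N := by omega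
  rw [e] at h
  exact h

end Lattice

/-! ### (U) -/

section U

variable {K : Type*} [Field K] [IsAlgClosed K]

/-- The `j`-invariant of a period pair. -/
def jL (L : PeriodPair) : ℂ := 1728 * L.g₂ ^ 3 / (L.g₂ ^ 3 - 27 * L.g₃ ^ 2)

/-- **(U)**: a point `Q` of odd prime order `N` on `E` (over an algebraically closed field `K`
embedded in `ℂ` by `i`) is uniformised by a period pair `L` and `z ∉ L`, `N z ∈ L`, such that
`i j(E) = j(L)` and `i j' = j(L')` for EVERY period pair `L'` with lattice `L + ℤ z`, where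
`j' = jq E N Q` is Velu's invariant of the quotient by `⟨Q⟩`. -/
theorem exists_lattice (E : WeierstrassCurve K) (hΔ : E.Δ ≠ 0) (i : K →+* ℂ) {N : ℕ}
    (hN : N.Prime) (hN2 : N ≠ 2) (Q : E.toAffine.Point) (hQ0 : Q ≠ 0) (hNQ : N • Q = 0) :
    ∃ (L : PeriodPair) (z : ℂ), z ∉ L.lattice ∧ (N : ℂ) * z ∈ L.lattice ∧
      i (E.c₄ ^ 3 / E.Δ) = jL L ∧
      ∀ L' : PeriodPair, (∀ w, w ∈ L'.lattice ↔ ∃ k : ℤ, w - (k : ℂ) * z ∈ L.lattice) →
        i (jq E N Q) = jL L' := by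
  obtain ⟨L, u, Φ, hu, hinj, htors, hc4, hc6, hΔL, hpt⟩ := isUnif E hΔ i
  obtain ⟨z, hz⟩ := QuotientAddGroup.mk_surjective (Φ Q)
  have hzL : z ∉ L.lattice := by
    intro h
    apply hQ0
    apply hinj
    rw [map_zero, ← hz]
    exact (QuotientAddGroup.eq_zero_iff z).mpr h
  have hNz : (N : ℂ) * z ∈ L.lattice := by
    have h1 : N • (QuotientAddGroup.mk z : ℂ ⧸ L.lattice.toAddSubgroup) = 0 := by
      rw [hz, ← map_nsmul, hNQ, map_zero]
    rw [← QuotientAddGroup.mk_nsmul, QuotientAddGroup.eq_zero_iff, nsmul_eq_mul] at h1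
    exact h1
  have hDL : L.g₂ ^ 3 - 27 * L.g₃ ^ 2 ≠ 0 := by
    intro h0
    rw [h0, mul_zero] at hΔL
    exact hΔ ((map_eq_zero i).mp hΔL)
  refine ⟨L, z, hzL, hNz, ?_, ?_⟩
  · rw [map_div₀, map_pow, hc4, hΔL, jL]
    field_simp
    ring
  · intro L' hL'
    -- the multiples of `Q`
    have hmul : ∀ k ∈ Finset.Icc 1 (N - 1),
        i (tP E (k • Q)) = u ^ 4 * (6 * ℘[L] ((k : ℂ) * z) ^ 2 - L.g₂ / 2) ∧
        i (psi2 E (k • Q)) = u ^ 3 * ℘'[L] ((k : ℂ) * z) := by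
      intro k hk
      have hΦ : Φ (k • Q) = QuotientAddGroup.mk ((k : ℂ) * z) := by
        rw [map_nsmul, ← hz, ← QuotientAddGroup.mk_nsmul, nsmul_eq_mul]
      have hkz : (k : ℂ) * z ∉ L.lattice :=
        natCast_mul_notMem L hN hzL hNz (not_dvd_of_mem_Icc hk)
      obtain ⟨h1, h2⟩ := hpt (k • Q) _ hΦ hkz
      refine ⟨?_, h2⟩
      have h24 : (24 : ℂ) * i (tP E (k • Q))
          = 24 * (u ^ 4 * (6 * ℘[L] ((k : ℂ) * z) ^ 2 - L.g₂ / 2)) := by
        have := congrArg i (tP_eq E (k • Q))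
        rw [map_mul, map_sub, map_pow, h1, hc4, map_ofNat] at this
        rw [this]
        ring
      exact mul_left_cancel₀ (by norm_num) h24
    have hg2 := g₂_superlattice L hN hzL hNz L' hL'
    have hdisc := disc_superlattice L hN hzL hNz L' hL' hN2
    -- `c₄'`
    have hc4' : i (c4q E N Q) = 12 * u ^ 4 * L'.g₂ := by
      rw [c4q, map_add, map_mul, map_sum, hc4, map_ofNat,
        Finset.sum_congr rfl (fun k hk => (hmul k hk).1), ← Finset.mul_sum, hg2]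
      ring
    -- the product of the `ψ₂`
    have hprod : i (∏ k ∈ Finset.Icc 1 (N - 1), psi2 E (k • Q) ^ 4)
        = (u ^ 12) ^ (N - 1) * ∏ k ∈ Finset.Icc 1 (N - 1), ℘'[L] ((k : ℂ) * z) ^ 4 := by
      rw [map_prod]
      have : ∀ k ∈ Finset.Icc 1 (N - 1), i (psi2 E (k • Q) ^ 4)
          = u ^ 12 * ℘'[L] ((k : ℂ) * z) ^ 4 := by
        intro k hk
        rw [map_pow, (hmul k hk).2]
        ring
      rw [Finset.prod_congr rfl this, Finset.prod_mul_distrib, Finset.prod_const, Nat.card_Icc]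
      have : N - 1 + 1 - 1 = N - 1 := by omega
      rw [this]
    have hP0 : ∏ k ∈ Finset.Icc 1 (N - 1), ℘'[L] ((k : ℂ) * z) ^ 4 ≠ 0 := by
      intro h0
      rw [h0, mul_zero] at hdisc
      exact pow_ne_zero N hDL hdisc.symm
    have hDL' : L'.g₂ ^ 3 - 27 * L'.g₃ ^ 2 ≠ 0 := by
      intro h0
      rw [h0, zero_mul] at hdisc
      exact pow_ne_zero N hDL hdisc.symm
    have hu12 : (u ^ 12) ^ (N - 1) * u ^ 12 = (u ^ 12) ^ N := by
      have hN1 := hN.one_lt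
      have e : N = N - 1 + 1 := by omega
      conv_rhs => rw [e, pow_succ]
    have e : (u ^ 12 * (L.g₂ ^ 3 - 27 * L.g₃ ^ 2)) ^ N = (u ^ 12) ^ (N - 1) * u ^ 12 *
        ((L'.g₂ ^ 3 - 27 * L'.g₃ ^ 2) * ∏ k ∈ Finset.Icc 1 (N - 1), ℘'[L] ((k : ℂ) * z) ^ 4) := by
      rw [mul_pow, hdisc, hu12]
    rw [jq, dq, map_div₀, map_pow, hc4', map_div₀, map_pow, hΔL, hprod, jL, e]
    have hu12' : u ^ 12 ≠ 0 := pow_ne_zero 12 hu
    have hu12'' : (u ^ 12) ^ (N - 1) ≠ 0 := pow_ne_zero _ hu12'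
    field_simp
    ring_nf

end U

end Fermat.Agent.S15.E2.Unif.Main
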