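import Fermat.Agent.S13.CU.ValSumPoint
import Fermat.Agent.S15.E1.SubLattice

/-!
# S15, block E2 (analytic side), part 1: the lattice `(1/N) L`

* `invPair L N` : the period pair `⟨ω₁/N, ω₂/N⟩`, with lattice `(1/N) L`;
* `G_invPair`, `g₂_invPair` : homogeneity, `g₂((1/N) L) = N⁴ g₂(L)`;
* `isReps_invPair` : main's `ValSum.reps L N` minus `0` represent the nonzero classes of
  `(1/N) L / L`;
* `sum_d2_reps` : `10 ∑_{0 ≠ r ∈ (1/N)L/L} ℘''(r) = (N⁴ - 1) g₂(L)` (lattice form of (S3a)).
-/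

set_option autoImplicit false

noncomputable section

namespace Fermat.Agent.S15.E2.Unif.Scale

open Complex
open scoped PeriodPair
open Fermat.Agent.S13.CU.ValSum Fermat.Agent.S13.CU.ValSumPoint
open Fermat.Agent.S15.E1.SubLattice

variable (L : PeriodPair) (N : ℕ) [NeZero N]

theorem natCast_ne_zero : (N : ℂ) ≠ 0 := Nat.cast_ne_zero.mpr (NeZero.ne N)

/-- the period pair `⟨ω₁/N, ω₂/N⟩` -/
def invPair : PeriodPair where
  ω₁ := L.ω₁ / N
  ω₂ := L.ω₂ / N
  indep := by
    have h := LinearIndependent.pair_iff.mp L.indep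
    refine LinearIndependent.pair_iff.mpr fun s t hst => ?_
    have hN : (N : ℝ) ≠ 0 := Nat.cast_ne_zero.mpr (NeZero.ne N)
    have hNc : (N : ℂ) ≠ 0 := natCast_ne_zero N
    have h1 := h (s / N) (t / N) (by
      rw [← hst]
      simp only [Complex.real_smul, Complex.ofReal_div, Complex.ofReal_natCast]
      ring)
    exact ⟨(div_eq_zero_iff.mp h1.1).resolve_right hN, (div_eq_zero_iff.mp h1.2).resolve_right hN⟩

@[simp] theorem invPair_ω₁ : (invPair L N).ω₁ = L.ω₁ / N := rfl
@[simp] theorem invPair_ω₂ : (invPair L N).ω₂ = L.ω₂ / N := rfl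

theorem mem_invPair_iff (w : ℂ) : w ∈ (invPair L N).lattice ↔ (N : ℂ) * w ∈ L.lattice := by
  have hN := natCast_ne_zero N
  rw [PeriodPair.mem_lattice, PeriodPair.mem_lattice]
  constructor
  · rintro ⟨m, n, rfl⟩
    refine ⟨m, n, ?_⟩
    simp only [invPair_ω₁, invPair_ω₂]
    field_simp
  · rintro ⟨m, n, h⟩
    refine ⟨m, n, ?_⟩
    simp only [invPair_ω₁, invPair_ω₂]
    have : w = (m * L.ω₁ + n * L.ω₂) / N := by
      rw [h]
      field_simp
    rw [this]
    ring

theorem lattice_le_invPair : L.lattice ≤ (invPair L N).lattice := by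
  intro x hx
  rw [mem_invPair_iff]
  have : (N : ℂ) * x = N • x := by simp
  rw [this]
  exact L.lattice.nsmul_mem hx N

/-- the bijection `l ↦ l / N` from `L` onto `(1/N) L` -/
def divEquiv : L.lattice ≃ (invPair L N).lattice where
  toFun l := ⟨(l : ℂ) / N, by
    rw [mem_invPair_iff]
    have hN := natCast_ne_zero N
    have : (N : ℂ) * ((l : ℂ) / N) = l := by field_simp
    rw [this]
    exact l.2⟩
  invFun l := ⟨(N : ℂ) * l, (mem_invPair_iff L N _).mp l.2⟩
  left_inv l := by
    have hN := natCast_ne_zero N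
    apply Subtype.ext
    show (N : ℂ) * ((l : ℂ) / N) = l
    field_simp
  right_inv l := by
    have hN := natCast_ne_zero N
    apply Subtype.ext
    show (N : ℂ) * (l : ℂ) / N = l
    field_simp

/-- homogeneity of the Eisenstein sums -/
theorem G_invPair (n : ℕ) : (invPair L N).G n = (N : ℂ) ^ n * L.G n := by
  have hN := natCast_ne_zero N
  rw [PeriodPair.G, PeriodPair.G, ← (divEquiv L N).tsum_eq, ← tsum_mul_left]
  refine tsum_congr fun l => ?_
  show ((((l : ℂ) / N)) ^ n)⁻¹ = (N : ℂ) ^ n * ((l : ℂ) ^ n)⁻¹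
  rw [div_pow, inv_div, div_eq_mul_inv]

theorem g₂_invPair : (invPair L N).g₂ = (N : ℂ) ^ 4 * L.g₂ := by
  rw [PeriodPair.g₂, PeriodPair.g₂, G_invPair]
  ring

theorem g₃_invPair : (invPair L N).g₃ = (N : ℂ) ^ 6 * L.g₃ := by
  rw [PeriodPair.g₃, PeriodPair.g₃, G_invPair]
  ring

/-- main's representatives of `(1/N) L / L`, minus `0`, in the spelling of `SubLattice.IsReps` -/
theorem isReps_invPair : IsReps L (invPair L N) ((reps L N).erase 0) where
  le := lattice_le_invPair L N
  mem := by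
    intro r hr
    rw [mem_invPair_iff]
    exact mul_mem_of_mem_reps L (NeZero.ne N) r (Finset.mem_of_mem_erase hr)
  notMem := by
    intro r hr h
    rw [Finset.mem_erase] at hr
    exact hr.1 (eq_zero_of_mem_reps_of_mem (NeZero.ne N) hr.2 h)
  exists_rep := by
    intro z hz hzL
    rw [mem_invPair_iff] at hz
    have hw : (N : ℂ) * (-z) ∈ L.lattice := by
      have := L.lattice.neg_mem hz
      rwa [← mul_neg] at this
    obtain ⟨t, ⟨ht, htz⟩, -⟩ := existsUnique_reps L (NeZero.ne N) (-z) hw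
    have h1 : z - t ∈ L.lattice := by
      have := L.lattice.neg_mem htz
      have e : -(-z + t) = z - t := by ring
      rwa [e] at this
    refine ⟨t, ?_, h1⟩
    rw [Finset.mem_erase]
    refine ⟨?_, ht⟩
    rintro rfl
    apply hzL
    simpa using h1
  unique := by
    intro r hr r' hr' h
    exact eq_of_mem_reps_of_sub_mem (NeZero.ne N) (Finset.mem_of_mem_erase hr)
      (Finset.mem_of_mem_erase hr') h

/-- **(S3a), lattice form**: `10 ∑_{r ≠ 0} (6 ℘(r)² - g₂/2) = (N⁴ - 1) g₂`. -/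
theorem sum_d2_reps :
    10 * ∑ r ∈ (reps L N).erase 0, (6 * ℘[L] r ^ 2 - L.g₂ / 2) = ((N : ℂ) ^ 4 - 1) * L.g₂ := by
  have h := (isReps_invPair L N).g₂_eq'
  rw [g₂_invPair] at h
  linear_combination -h

end Fermat.Agent.S15.E2.Unif.Scale
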